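/-
S39 / S40, leaf FIN-GOOD (`S39.Stmt_FinGoodD`): interfaces and wiring (helper71).
Plan: `NOTES/plan/L_S39_FinGood.md`.

`W` good at `p` (odd), `E[p]` with the Steinberg shape (strong form) at a place `A` over `p`
⟹ `E[p]` is finite at `A` (`S44.IsFiniteAt`: inertia acts trivially after adjoining `μ_p` and the
`p`-th roots of an integer prime to `p`).

* `Stmt_FlatBdd` (L1): `E[p]` is trivial on `Gal(K̄/L)` for a finite Galois `L/ℚ_p` of bounded
  ramification.  [T1 + T5 (`Tate.T5.H4.stmt_T5odd`) + Fontaine's bound `S56.FL.H54.stmt_FL_A`.]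
* `Stmt_ConjShape`, `Stmt_ConjFin` (L2): `SteinbergShapeD` and `IsFiniteAt` do not depend on the
  place over `p` (the places are conjugate).
* `Stmt_FinLoc` (L3): the local core at the place `padicPlace p`: a plane over `ZMod p` with
  cyclotomic determinant, the Steinberg shape, trivial on `Gal(K̄/L)`, `L` bounded, is finite at
  `p`.  [The cocycle of the extension is a bounded cocycle for the cyclotomic character; its Kummer
  class is `1 + p u`, `u ∈ ℤ_p` (`S56.FL.H85.exists_kumRel`), so it is the class of the integer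
  `1 + p n`, `n ≡ u mod p`.]
* `finGoodD_of : Stmt_FlatBdd → Stmt_ConjShape → Stmt_ConjFin → Stmt_FinLoc → Stmt_FinGoodD`.
-/
import Fermat.Agent.S39.WiringD
import Fermat.Agent.S56.FL.Local
import Fermat.Agent.S56.FL.Coh
import Fermat.Agent.S58.H99_Tors
import Fermat.Agent.L.H52_DetCyc
import Fermat.Prelude.Def_GaloisRep_CompletionBridge

set_option autoImplicit false
set_option synthInstance.maxHeartbeats 400000
set_option maxHeartbeats 1000000

noncomputable section

open WeierstrassCurve WeierstrassCurve.Affine WeierstrassCurve.Affine.Point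
open scoped WeierstrassCurve.Affine

namespace Fermat.Agent.S39.FinGood

open Fermat.Agent.S39 Fermat.Agent.S44 Fermat.Agent.S56.FL

/-- A representation of `G_ℚ` is trivial on `Gal(K̄/L)` (through `localGaloisToGlobal`) for a
finite Galois extension `L/ℚ_p` of bounded ramification. -/
def IsBddRep (p : ℕ) [Fact p.Prime] {V : Type} [AddCommGroup V] [Module (ZMod p) V]
    (ρ : GQ →* Module.End (ZMod p) V) : Prop :=
  ∃ (L : IntermediateField ℚ_[p] (PadicAlgCl p)) (_ : FiniteDimensional ℚ_[p] L),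
    Normal ℚ_[p] L ∧ IsBddField p L ∧
      ∀ σ : Gp p, σ ∈ L.fixingSubgroup → ρ (localGaloisToGlobal p σ) = 1

/-- **L1** (FLAT-BDD): Fontaine's bound for `E[p]`, `p` odd and good. -/
def Stmt_FlatBdd : Prop :=
  ∀ (W : WeierstrassCurve ℤ), W.Δ ≠ 0 → ∀ (p : ℕ) [Fact p.Prime], p ≠ 2 →
    W.IsGoodPrimeFor p → IsBddRep p (rhoTors W p)

/-- **L2a** (CONJ-SHAPE): the Steinberg shape does not depend on the place over `p`. -/
def Stmt_ConjShape : Prop :=
  ∀ (p : ℕ), p.Prime →
    ∀ A A' : ValuationSubring (AlgebraicClosure ℚ), A.LiesOverPrime p → A'.LiesOverPrime p →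
    ∀ (V : Type) [AddCommGroup V] [Module (ZMod p) V] (ρ : GQ →* Module.End (ZMod p) V),
      SteinbergShapeD p A ρ → SteinbergShapeD p A' ρ

/-- **L2b** (CONJ-FIN): finiteness at `p` does not depend on the place over `p`. -/
def Stmt_ConjFin : Prop :=
  ∀ (p : ℕ), p.Prime →
    ∀ A A' : ValuationSubring (AlgebraicClosure ℚ), A.LiesOverPrime p → A'.LiesOverPrime p →
    ∀ (V : Type) [AddCommGroup V] [Module (ZMod p) V] (ρ : GQ →* Module.End (ZMod p) V),
      IsFiniteAt p A ρ → IsFiniteAt p A' ρ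

/-- **L3** (FIN-LOC): the local core, at the place `padicPlace p`. -/
def Stmt_FinLoc : Prop :=
  ∀ (p : ℕ) [Fact p.Prime], p ≠ 2 →
    ∀ (V : Type) [AddCommGroup V] [Module (ZMod p) V] (ρ : GQ →* Module.End (ZMod p) V),
      Module.finrank (ZMod p) V = 2 →
      GaloisFactorsThroughFiniteLevel ρ →
      (∀ (σ : GQ) (a : ℕ), (∀ μ : AlgebraicClosure ℚ, μ ^ p = 1 → σ μ = μ ^ a) →
        LinearMap.det (ρ σ) = (a : ZMod p)) →
      IsBddRep p ρ →
      SteinbergShapeD p (padicPlace p) ρ → IsFiniteAt p (padicPlace p) ρ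

/-- `padicPlace p` lies over `p`. -/
theorem padicPlace_liesOver (p : ℕ) [Fact p.Prime] : (padicPlace p).LiesOverPrime p := by
  show (p : AlgebraicClosure ℚ) ∈ (padicPlace p).nonunits
  have hp : p.Prime := Fact.out
  have hp0 : (p : AlgebraicClosure ℚ) ≠ 0 := by exact_mod_cast hp.ne_zero
  rw [ValuationSubring.mem_nonunits_iff_or, or_iff_right hp0, mem_padicPlace_iff, map_inv₀,
    map_natCast, nnnorm_inv, ← NNReal.coe_le_coe, NNReal.coe_inv, coe_nnnorm, NNReal.coe_one,
    not_le]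
  have h1 : ‖(p : PadicAlgCl p)‖ = (p : ℝ)⁻¹ := by
    have h2 : ((p : ℚ_[p]) : PadicAlgCl p) = (p : PadicAlgCl p) := map_natCast _ _
    rw [← h2]
    have h3 : ‖algebraMap ℚ_[p] (PadicAlgCl p) (p : ℚ_[p])‖ = ‖(p : ℚ_[p])‖ :=
      norm_algebraMap' (PadicAlgCl p) (p : ℚ_[p])
    rw [show ((p : ℚ_[p]) : PadicAlgCl p) = algebraMap ℚ_[p] (PadicAlgCl p) (p : ℚ_[p]) from
      rfl, h3, Padic.norm_p]
  rw [h1, inv_inv]
  exact_mod_cast hp.one_lt

/-- **FIN-GOOD from the leaves.** -/
theorem finGoodD_of (h1 : Stmt_FlatBdd) (h2a : Stmt_ConjShape) (h2b : Stmt_ConjFin)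
    (h3 : Stmt_FinLoc) : Stmt_FinGoodD := by
  intro W hΔ p hp hp2 hgood _ A hA hshape
  have : Fact p.Prime := ⟨hp⟩
  have hA₀ := padicPlace_liesOver p
  refine h2b p hp (padicPlace p) A hA₀ hA _ (rhoTors W p) ?_
  refine h3 p hp2 _ (rhoTors W p) (Fermat.Agent.S58.H99.finrank_torsW W hΔ p)
    (Fermat.Agent.S58.H99.torsW_finiteLevel W hΔ p)
    (fun σ a ha => Fermat.Agent.L.H52.det_rhoW_eq_natCast hΔ σ a ha)
    (h1 W hΔ p hp2 hgood) (h2a p hp A (padicPlace p) hA hA₀ _ (rhoTors W p) hshape)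

end Fermat.Agent.S39.FinGood
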