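/-
S39 / S40, leaf FIN-GOOD, L2 (CONJ-SHAPE, CONJ-FIN) (helper71).
Plan: `NOTES/plan/L_S39_FinGood.md`.

The places of `ℚ̄` over `p` are conjugate (`Lib.InertiaConj.exists_smul_primeUnder`), so the
decomposition and inertia groups at `A'` are the conjugates by some `g` of those at `A`; the
Steinberg shape and finiteness at `A` are carried to `A'` by the line `ρ g L`.
-/
import Fermat.Agent.S39.FinGood.Defs
import Fermat.Agent.Lib.InertiaConj

set_option autoImplicit false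
set_option synthInstance.maxHeartbeats 400000
set_option maxHeartbeats 1000000

open scoped Pointwise

noncomputable section

namespace Fermat.Agent.S39.FinGood.H71

open Fermat.Agent.S39 Fermat.Agent.S44
open Fermat.Agent.Lib.FrobIntegers Fermat.Agent.Lib.FrobExists Fermat.Agent.Lib.InertiaBridge
  Fermat.Agent.Lib.InertiaConj

/-- Decomposition and inertia groups over the same prime are conjugate (by the same element). -/
theorem exists_conj_dec_inertia (ℓ : ℕ) (hℓ : ℓ.Prime)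
    (A A' : ValuationSubring (AlgebraicClosure ℚ)) (hA : A.LiesOverPrime ℓ)
    (hA' : A'.LiesOverPrime ℓ) :
    ∃ g : GQ, (∀ s : GQ, s ∈ A'.decompositionSubgroup ℚ ↔
        g⁻¹ * s * g ∈ A.decompositionSubgroup ℚ) ∧
      ∀ s : GQ, s ∈ A'.inertiaSubgroupIn ℚ ↔ g⁻¹ * s * g ∈ A.inertiaSubgroupIn ℚ := by
  obtain ⟨g, hg⟩ := exists_smul_primeUnder ℓ hℓ A A' hA hA'
  refine ⟨g, fun s => ?_, fun s => ?_⟩
  · rw [mem_decompositionSubgroup_iff ℓ hℓ A' hA', mem_decompositionSubgroup_iff ℓ hℓ A hA, hg,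
      mul_smul, mul_smul]
    constructor
    · intro h
      rw [h, inv_smul_smul]
    · intro h
      have h1 := congrArg (fun I => g • I) h
      simp only [smul_inv_smul] at h1
      exact h1
  · rw [mem_inertiaSubgroupIn_iff ℓ hℓ A' hA', mem_inertiaSubgroupIn_iff ℓ hℓ A hA, hg]
    constructor
    · intro h b
      have h1 := h (g • b)
      rw [Ideal.mem_pointwise_smul_iff_inv_smul_mem, smul_sub, inv_smul_smul] at h1
      rw [mul_smul, mul_smul]
      exact h1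
    · intro h b
      have h1 := h (g⁻¹ • b)
      rw [Ideal.mem_pointwise_smul_iff_inv_smul_mem, smul_sub]
      rw [mul_smul, mul_smul, smul_inv_smul] at h1
      exact h1

section Rep

variable {p : ℕ} {V : Type} [AddCommGroup V] [Module (ZMod p) V]
  (ρ : GQ →* Module.End (ZMod p) V)

theorem rho_inv_apply (g : GQ) (x : V) : ρ g⁻¹ (ρ g x) = x := by
  rw [← Module.End.mul_apply, ← map_mul, inv_mul_cancel, map_one, Module.End.one_apply]

theorem rho_apply_inv (g : GQ) (x : V) : ρ g (ρ g⁻¹ x) = x := by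
  rw [← Module.End.mul_apply, ← map_mul, mul_inv_cancel, map_one, Module.End.one_apply]

/-- `ρ g⁻¹ ∘ ρ s = ρ (g⁻¹ s g) ∘ ρ g⁻¹`. -/
theorem rho_conj_apply (g s : GQ) (x : V) : ρ g⁻¹ (ρ s x) = ρ (g⁻¹ * s * g) (ρ g⁻¹ x) := by
  rw [← Module.End.mul_apply, ← Module.End.mul_apply, ← map_mul, ← map_mul,
    mul_inv_cancel_right]

theorem conjLine_ne_top (g : GQ) (L : Submodule (ZMod p) V) (hL : L ≠ ⊤) :
    L.comap (ρ g⁻¹) ≠ ⊤ := by
  intro h
  apply hL
  rw [eq_top_iff]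
  intro x _
  have h1 : ρ g x ∈ L.comap (ρ g⁻¹) := by rw [h]; trivial
  rw [Submodule.mem_comap, rho_inv_apply] at h1
  exact h1

theorem conjLine_ne_bot (g : GQ) (L : Submodule (ZMod p) V) (hL : L ≠ ⊥) :
    L.comap (ρ g⁻¹) ≠ ⊥ := by
  intro h
  obtain ⟨x, hx, hx0⟩ := Submodule.exists_mem_ne_zero_of_ne_bot hL
  have h1 : ρ g x ∈ L.comap (ρ g⁻¹) := by
    rw [Submodule.mem_comap, rho_inv_apply]
    exact hx
  rw [h, Submodule.mem_bot] at h1
  apply hx0
  rw [← rho_inv_apply ρ g x, h1, map_zero]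

end Rep

/-- **L2a** (CONJ-SHAPE). -/
theorem stmt_ConjShape : Stmt_ConjShape := by
  intro p hp A A' hA hA' V _ _ ρ hshape
  obtain ⟨L, hL0, hLtop, hLD, hLI, hLsq⟩ := hshape
  obtain ⟨g, hgD, hgI⟩ := exists_conj_dec_inertia p hp A A' hA hA'
  refine ⟨L.comap (ρ g⁻¹), conjLine_ne_bot ρ g L hL0, conjLine_ne_top ρ g L hLtop,
    fun s hs x hx => ?_, fun s hs x => ?_, fun s hs x => ?_⟩
  · rw [Submodule.mem_comap, rho_conj_apply]
    exact hLD _ ((hgD s).mp hs) _ hx
  · rw [Submodule.mem_comap, map_sub, rho_conj_apply]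
    exact hLI _ ((hgI s).mp hs) _
  · rw [Submodule.mem_comap, map_sub, rho_conj_apply]
    have h1 : g⁻¹ * (s * s) * g = (g⁻¹ * s * g) * (g⁻¹ * s * g) := by group
    rw [h1]
    exact hLsq _ ((hgD s).mp hs) _

/-- **L2b** (CONJ-FIN). -/
theorem stmt_ConjFin : Stmt_ConjFin := by
  intro p hp A A' hA hA' V _ _ ρ hfin
  obtain ⟨L, hLtop, hLcyc, hLI, u, hu, hLu⟩ := hfin
  obtain ⟨g, hgD, hgI⟩ := exists_conj_dec_inertia p hp A A' hA hA'
  have hginv : ∀ x : AlgebraicClosure ℚ, g⁻¹ (g x) = x := fun x => g.symm_apply_apply x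
  refine ⟨L.comap (ρ g⁻¹), conjLine_ne_top ρ g L hLtop, fun s hs n hn x hx => ?_,
    fun s hs x => ?_, u, hu, fun s hs hμ hroots x => ?_⟩
  · have h1 : ∀ ζ : AlgebraicClosure ℚ, ζ ^ p = 1 → (g⁻¹ * s * g) ζ = ζ ^ n := by
      intro ζ hζ
      show g⁻¹ (s (g ζ)) = ζ ^ n
      rw [hn (g ζ) (by rw [← map_pow, hζ, map_one]), map_pow, hginv]
    have h2 := hLcyc _ ((hgI s).mp hs) n h1 (ρ g⁻¹ x) hx
    rw [← rho_conj_apply] at h2
    have h3 := congrArg (ρ g) h2
    rw [rho_apply_inv, map_smul, rho_apply_inv] at h3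
    exact h3
  · rw [Submodule.mem_comap, map_sub, rho_conj_apply]
    exact hLI _ ((hgI s).mp hs) _
  · have h1 : ∀ ζ : AlgebraicClosure ℚ, ζ ^ p = 1 → (g⁻¹ * s * g) ζ = ζ := by
      intro ζ hζ
      show g⁻¹ (s (g ζ)) = ζ
      rw [hμ (g ζ) (by rw [← map_pow, hζ, map_one]), hginv]
    have h2 : ∀ z : AlgebraicClosure ℚ, z ^ p = (u : AlgebraicClosure ℚ) →
        (g⁻¹ * s * g) z = z := by
      intro z hz
      show g⁻¹ (s (g z)) = z
      rw [hroots (g z) (by rw [← map_pow, hz, map_intCast]), hginv]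
    have h3 := hLu _ ((hgI s).mp hs) h1 h2 (ρ g⁻¹ x)
    rw [← rho_conj_apply] at h3
    have h4 := congrArg (ρ g) h3
    rw [rho_apply_inv, rho_apply_inv] at h4
    exact h4

end Fermat.Agent.S39.FinGood.H71
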