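/-
S39 / S40, leaf FIN-GOOD, sub-leaf KUM-INT of L3 (helper71).  Plan: `NOTES/plan/L_S39_FinGood.md` §2 (b), (c).

`Stmt_KumInt`: a bounded cocycle `f : Gal(K̄/ℚ_p) → ZMod p` for the mod `p` cyclotomic character
`ω = H85.omg` is cut out by `μ_p` and the `p`-th roots of an INTEGER `1 + p n`.
-/
import Fermat.Agent.S39.FinGood.Defs
import Fermat.Agent.S56.FL.H85_CCKum

set_option autoImplicit false

noncomputable section

namespace Fermat.Agent.S39.FinGood

open Fermat.Agent.S56.FL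

/-- **KUM-INT.**  `f` a cocycle on `G_p = Gal(K̄/ℚ_p)` for the cyclotomic character `ω`, with values
in `ZMod p`, trivial on `Gal(K̄/L)` for a finite Galois `L/ℚ_p` of bounded ramification.  Then there
is an integer `n` such that `f σ = 0` for every `σ` which fixes `ζ` and all `p`-th roots of
`1 + p n`.
[`L' = L ⊔ ℚ_p(ζ)` is bounded (`H15.isBdd_sup`); `H85.exists_kumRel` with `H = ⊤`: `u` fixed by
`G_p` (so `u ∈ ℚ_p`), `‖u‖ ≤ 1`, `α ^ p = 1 + p u`, `s α = ζ ^ (f s) α`; `n ≡ u mod p`;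
`(1 + p u) / (1 + p n) ∈ 1 + p² ℤ_p` is the `p`-th power of some `b ∈ ℚ_p`
(`LocalKummer.exists_root_near_one`, `root_near_one_fixed`, as in `H85.KumRel.ker`); `α / b` is a
`p`-th root of `1 + p n`.] -/
def Stmt_KumInt : Prop :=
  ∀ (p : ℕ) [Fact p.Prime], p ≠ 2 →
    ∀ (ζ : PadicAlgCl p) (hζ : IsPrimitiveRoot ζ p)
      (L : IntermediateField ℚ_[p] (PadicAlgCl p)) [FiniteDimensional ℚ_[p] L],
      Normal ℚ_[p] L → IsBddField p L →
      ∀ f : Gp p → ZMod p,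
        (∀ s t : Gp p, f (s * t) = f s + ((H85.omg hζ s : (ZMod p)ˣ) : ZMod p) * f t) →
        (∀ s ∈ L.fixingSubgroup, f s = 0) →
        ∃ n : ℤ, ∀ σ : Gp p, σ ζ = ζ →
          (∀ z : PadicAlgCl p, z ^ p = ((1 + (p : ℤ) * n : ℤ) : PadicAlgCl p) → σ z = z) →
            f σ = 0

end Fermat.Agent.S39.FinGood
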