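/-
S39 / S40, leaf FIN-GOOD, L3 (FIN-LOC), linear algebra (helper71).

Upper triangular endomorphisms of a plane with a basis `b` (`b 0` spans the stable line):
the coefficients `triX`, `triC`, `triZ` and their multiplication rules.
-/
import Mathlib

set_option autoImplicit false

noncomputable section

namespace Fermat.Agent.S39.FinGood.H71

variable {k V : Type*} [Field k] [AddCommGroup V] [Module k V]

/-- A proper nonzero subspace of a plane is spanned by the first vector of a basis. -/
theorem exists_basis_of_line (h2 : Module.finrank k V = 2) (L : Submodule k V) (h0 : L ≠ ⊥)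
    (h1 : L ≠ ⊤) : ∃ b : Module.Basis (Fin 2) k V, L = Submodule.span k {b 0} := by
  have : FiniteDimensional k V := Module.finite_of_finrank_pos (by omega)
  obtain ⟨v, hvL, hv0⟩ := Submodule.exists_mem_ne_zero_of_ne_bot h0
  have hL1 : Module.finrank k L = 1 := by
    have h3 : Module.finrank k L < 2 := h2 ▸ Submodule.finrank_lt h1
    have h4 : 0 < Module.finrank k L :=
      Module.finrank_pos_iff_exists_ne_zero.mpr
        ⟨⟨v, hvL⟩, fun h => hv0 (congrArg Subtype.val h)⟩
    omega
  have hspan : L = Submodule.span k {v} := by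
    refine le_antisymm (fun w hw => ?_) ((Submodule.span_singleton_le_iff_mem _ _).mpr hvL)
    have h5 := (finrank_eq_one_iff_of_nonzero' (⟨v, hvL⟩ : L)
      (fun h => hv0 (congrArg Subtype.val h))).mp hL1 ⟨w, hw⟩
    obtain ⟨c, hc⟩ := h5
    rw [Submodule.mem_span_singleton]
    exact ⟨c, congrArg Subtype.val hc⟩
  obtain ⟨w, hw⟩ : ∃ w, w ∉ L := by
    by_contra h
    push_neg at h
    exact h1 (eq_top_iff.mpr fun x _ => h x)
  have hli : LinearIndependent k ![v, w] := by
    rw [LinearIndependent.pair_iff' hv0]
    intro a ha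
    apply hw
    rw [← ha]
    exact L.smul_mem a hvL
  refine ⟨basisOfLinearIndependentOfCardEqFinrank hli (by simp [h2]), ?_⟩
  rw [coe_basisOfLinearIndependentOfCardEqFinrank, hspan]
  rfl

variable (b : Module.Basis (Fin 2) k V)

/-- The coefficient of `b 0` in `T (b 0)`. -/
def triX (T : Module.End k V) : k := b.repr (T (b 0)) 0

/-- The coefficient of `b 0` in `T (b 1)`. -/
def triC (T : Module.End k V) : k := b.repr (T (b 1)) 0

/-- The coefficient of `b 1` in `T (b 1)`. -/
def triZ (T : Module.End k V) : k := b.repr (T (b 1)) 1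

theorem repr_one_of_mem_span {y : V} (hy : y ∈ Submodule.span k {b 0}) : b.repr y 1 = 0 := by
  obtain ⟨t, rfl⟩ := Submodule.mem_span_singleton.mp hy
  rw [map_smul, Finsupp.smul_apply, Module.Basis.repr_self,
    Finsupp.single_eq_of_ne (by decide), smul_zero]

theorem tri_apply_one (T : Module.End k V) : T (b 1) = triC b T • b 0 + triZ b T • b 1 := by
  have h := b.sum_repr (T (b 1))
  rw [Fin.sum_univ_two] at h
  exact h.symm

theorem tri_apply_zero (T : Module.End k V) (hT : T (b 0) ∈ Submodule.span k {b 0}) :
    T (b 0) = triX b T • b 0 := by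
  have h := b.sum_repr (T (b 0))
  rw [Fin.sum_univ_two, repr_one_of_mem_span b hT, zero_smul, add_zero] at h
  exact h.symm

theorem triZ_mul (S T : Module.End k V) (hS : S (b 0) ∈ Submodule.span k {b 0}) :
    triZ b (S * T) = triZ b S * triZ b T := by
  have h1 : (S * T) (b 1) = (triC b T * triX b S + triZ b T * triC b S) • b 0
      + (triZ b T * triZ b S) • b 1 := by
    rw [Module.End.mul_apply, tri_apply_one b T, map_add, map_smul, map_smul,
      tri_apply_zero b S hS, tri_apply_one b S, smul_add, smul_smul, smul_smul, smul_smul,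
      add_smul]
    abel
  unfold triZ
  rw [h1, map_add, map_smul, map_smul, Finsupp.add_apply, Finsupp.smul_apply,
    Finsupp.smul_apply, Module.Basis.repr_self, Module.Basis.repr_self,
    Finsupp.single_eq_of_ne (by decide), Finsupp.single_eq_same, smul_zero, zero_add,
    smul_eq_mul, mul_one, mul_comm]
  rfl

theorem triC_mul (S T : Module.End k V) (hS : S (b 0) ∈ Submodule.span k {b 0}) :
    triC b (S * T) = triX b S * triC b T + triC b S * triZ b T := by
  have h1 : (S * T) (b 1) = (triC b T * triX b S + triZ b T * triC b S) • b 0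
      + (triZ b T * triZ b S) • b 1 := by
    rw [Module.End.mul_apply, tri_apply_one b T, map_add, map_smul, map_smul,
      tri_apply_zero b S hS, tri_apply_one b S, smul_add, smul_smul, smul_smul, smul_smul,
      add_smul]
    abel
  unfold triC
  rw [h1, map_add, map_smul, map_smul, Finsupp.add_apply, Finsupp.smul_apply,
    Finsupp.smul_apply, Module.Basis.repr_self, Module.Basis.repr_self,
    Finsupp.single_eq_same, Finsupp.single_eq_of_ne (by decide), smul_zero, add_zero,
    smul_eq_mul, mul_one]
  unfold triC
  ring

theorem tri_det (T : Module.End k V) (hT : T (b 0) ∈ Submodule.span k {b 0}) :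
    LinearMap.det T = triX b T * triZ b T := by
  classical
  rw [← LinearMap.det_toMatrix b, Matrix.det_fin_two]
  have h10 : LinearMap.toMatrix b b T 1 0 = 0 := by
    rw [LinearMap.toMatrix_apply]
    exact repr_one_of_mem_span b hT
  rw [h10, mul_zero, sub_zero, LinearMap.toMatrix_apply, LinearMap.toMatrix_apply]
  rfl

theorem triZ_eq_one (T : Module.End k V) (hT : T (b 1) - b 1 ∈ Submodule.span k {b 0}) :
    triZ b T = 1 := by
  have h := repr_one_of_mem_span b hT
  rw [map_sub, Finsupp.sub_apply, Module.Basis.repr_self, Finsupp.single_eq_same,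
    sub_eq_zero] at h
  exact h

theorem tri_eq_one (T : Module.End k V) (hT : T (b 0) ∈ Submodule.span k {b 0})
    (hX : triX b T = 1) (hZ : triZ b T = 1) (hC : triC b T = 0) : T = 1 := by
  refine b.ext fun i => ?_
  fin_cases i
  · show T (b 0) = b 0
    rw [tri_apply_zero b T hT, hX, one_smul]
  · show T (b 1) = b 1
    rw [tri_apply_one b T, hZ, hC, zero_smul, zero_add, one_smul]

theorem triC_one : triC b (1 : Module.End k V) = 0 := by
  unfold triC
  rw [Module.End.one_apply, Module.Basis.repr_self, Finsupp.single_eq_of_ne (by decide)]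

end Fermat.Agent.S39.FinGood.H71
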