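/-
S39 / S40, leaf FIN-GOOD, L3 (FIN-LOC) from KUM-INT (helper71).
Plan: `NOTES/plan/L_S39_FinGood.md` §2.

`finLoc_of : Stmt_KumInt → Stmt_FinLoc`.

In a basis `b` with `L = span {b 0}`, the decomposition group acts through upper triangular
matrices `[[X, C], [0, Z]]`, `X Z = ω` (the determinant is cyclotomic), `Z ^ 2 = 1` (the
Steinberg shape), `Z = 1` on inertia.  `f := C Z` (pulled back to `Gal(K̄/ℚ_p)`) is a cocycle for
`ω`, trivial on `Gal(K̄/L_b)`; KUM-INT gives the integer `1 + p n`.  An inertia element `σ` fixing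
`μ_p` and the `p`-th roots of `1 + p n` agrees on a finite level with some local `τ`
(`Lib.LocalGlobalDense.exists_local_lift_field`), so `C σ = 0`, `Z σ = 1`, `X σ = ω σ = 1`.
-/
import Fermat.Agent.S39.FinGood.Defs2
import Fermat.Agent.S39.FinGood.H71_FinLocLin
import Fermat.Agent.Lib.LocalGlobalDense

set_option autoImplicit false
set_option synthInstance.maxHeartbeats 400000
set_option maxHeartbeats 1000000

noncomputable section

namespace Fermat.Agent.S39.FinGood.H71

open Fermat.Agent.S39 Fermat.Agent.S44 Fermat.Agent.S56.FL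

/-- Inertia is contained in the decomposition group. -/
theorem inertia_le_dec (A : ValuationSubring (AlgebraicClosure ℚ)) {σ : GQ}
    (h : σ ∈ A.inertiaSubgroupIn ℚ) : σ ∈ A.decompositionSubgroup ℚ :=
  ((Fermat.Agent.Lib.InertiaBridge.mem_inertiaSubgroupIn_iff_forall A σ).mp h).1

/-- A representation of finite level takes the same value at two automorphisms which agree on the
level field. -/
theorem rho_eq_of_agree {M : Type} [Monoid M] (ρ : GQ →* M)
    (F : IntermediateField ℚ (AlgebraicClosure ℚ))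
    (hF : ∀ σ : GQ, (∀ x ∈ F, σ x = x) → ρ σ = 1) (g g' : GQ) (h : ∀ x ∈ F, g x = g' x) :
    ρ g = ρ g' := by
  have h1 : ρ (g'⁻¹ * g) = 1 := hF _ (fun x hx => by
    show g'⁻¹ (g x) = x
    rw [h x hx]
    exact g'.symm_apply_apply x)
  calc ρ g = ρ (g' * (g'⁻¹ * g)) := by rw [mul_inv_cancel_left]
    _ = ρ g' * ρ (g'⁻¹ * g) := map_mul _ _ _
    _ = ρ g' := by rw [h1, mul_one]

/-- **FIN-LOC from KUM-INT.** -/
theorem finLoc_of (hK : Stmt_KumInt) : Stmt_FinLoc := by
  intro p _ hp2 V _ _ ρ h2 hfin hdet hbdd hshape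
  classical
  have hp : p.Prime := Fact.out
  obtain ⟨L, hL0, hLtop, hLD, hLI, hLsq⟩ := hshape
  obtain ⟨b, hb⟩ := exists_basis_of_line h2 L hL0 hLtop
  obtain ⟨Lb, hLbfin, hLbN, hLbB, hLbρ⟩ := hbdd
  obtain ⟨F, hFfin, hF⟩ := hfin
  have hb0 : b 0 ∈ L := by rw [hb]; exact Submodule.mem_span_singleton_self _
  have hst : ∀ g ∈ (padicPlace p).decompositionSubgroup ℚ,
      ρ g (b 0) ∈ Submodule.span (ZMod p) {b 0} := fun g hg => hb ▸ hLD g hg _ hb0
  have hloc : ∀ τ : Gp p,
      localGaloisToGlobal p τ ∈ (padicPlace p).decompositionSubgroup ℚ :=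
    localGaloisToGlobal_mem_decompositionSubgroup p
  have hZsq : ∀ g ∈ (padicPlace p).decompositionSubgroup ℚ,
      triZ b (ρ g) * triZ b (ρ g) = 1 := by
    intro g hg
    rw [← triZ_mul b _ _ (hst g hg), ← map_mul]
    exact triZ_eq_one b _ (hb ▸ hLsq g hg (b 1))
  have hZI : ∀ σ ∈ (padicPlace p).inertiaSubgroupIn ℚ, triZ b (ρ σ) = 1 :=
    fun σ hσ => triZ_eq_one b _ (hb ▸ hLI σ hσ (b 1))
  -- roots of unity
  have : NeZero p := ⟨hp.ne_zero⟩
  obtain ⟨ζ₀, hζ₀⟩ := HasEnoughRootsOfUnity.exists_primitiveRoot (AlgebraicClosure ℚ) p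
  obtain ⟨ζ, hζdef⟩ : ∃ ζ : PadicAlgCl p, ζ = padicEmbedding p ζ₀ := ⟨_, rfl⟩
  have hζ : IsPrimitiveRoot ζ p := by
    rw [hζdef]
    exact hζ₀.map_of_injective (padicEmbedding p).toRingHom.injective
  -- the determinant of the local elements
  have hdetloc : ∀ τ : Gp p, LinearMap.det (ρ (localGaloisToGlobal p τ))
      = ((H85.omg hζ τ : (ZMod p)ˣ) : ZMod p) := by
    intro τ
    rw [hdet (localGaloisToGlobal p τ) ((H85.omg hζ τ : (ZMod p)ˣ) : ZMod p).val ?_,
      ZMod.natCast_zmod_val]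
    intro μ hμ
    apply (padicEmbedding p).toRingHom.injective
    show padicEmbedding p (localGaloisToGlobal p τ μ) = padicEmbedding p (μ ^ _)
    rw [padicEmbedding_localGaloisToGlobal, map_pow]
    exact H85.omg_spec' hζ τ (by rw [← map_pow, hμ, map_one])
  -- the cocycle
  obtain ⟨f, hf⟩ : ∃ f : Gp p → ZMod p, ∀ τ, f τ
      = triC b (ρ (localGaloisToGlobal p τ)) * triZ b (ρ (localGaloisToGlobal p τ)) :=
    ⟨_, fun _ => rfl⟩
  have hcoc : ∀ s t : Gp p,
      f (s * t) = f s + ((H85.omg hζ s : (ZMod p)ˣ) : ZMod p) * f t := by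
    intro s t
    have hs := hst _ (hloc s)
    have h1 := hZsq _ (hloc t)
    rw [hf, hf, hf, map_mul, map_mul, triC_mul b _ _ hs, triZ_mul b _ _ hs, ← hdetloc s,
      tri_det b _ hs]
    linear_combination (triC b (ρ (localGaloisToGlobal p s))
      * triZ b (ρ (localGaloisToGlobal p s))) * h1
  have hf0 : ∀ s ∈ Lb.fixingSubgroup, f s = 0 := by
    intro s hs
    rw [hf, hLbρ s hs, triC_one, zero_mul]
  have := hLbfin
  obtain ⟨n, hn⟩ := hK p hp2 ζ hζ Lb hLbN hLbB f hcoc hf0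
  have hu : ¬ (p : ℤ) ∣ 1 + (p : ℤ) * n := by
    intro hdiv
    have h1 : (p : ℤ) ∣ 1 := (Int.dvd_add_left (dvd_mul_right (p : ℤ) n)).mp hdiv
    have h2 : (p : ℤ) = 1 := Int.eq_one_of_dvd_one (by positivity) h1
    exact hp.one_lt.ne' (by exact_mod_cast h2)
  have hu0 : ((1 + (p : ℤ) * n : ℤ) : PadicAlgCl p) ≠ 0 := by
    intro h0
    have h1 : (1 + (p : ℤ) * n : ℤ) = 0 := by exact_mod_cast h0
    exact hu (h1 ▸ dvd_zero _)
  refine ⟨L, hLtop, ?_, hLI, 1 + (p : ℤ) * n, hu, ?_⟩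
  · -- inertia acts on `L` through the cyclotomic character
    intro σ hσ m hm x hx
    have hσD := inertia_le_dec _ hσ
    have hX : triX b (ρ σ) = (m : ZMod p) := by
      have h1 := tri_det b (ρ σ) (hst σ hσD)
      rw [hdet σ m hm, hZI σ hσ, mul_one] at h1
      exact h1.symm
    rw [hb] at hx
    obtain ⟨t, rfl⟩ := Submodule.mem_span_singleton.mp hx
    rw [map_smul, tri_apply_zero b _ (hst σ hσD), hX, smul_comm]
  · -- inertia is trivial after adjoining `μ_p` and the `p`-th roots of `1 + p n`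
    intro σ hσ hμ hroots x
    have hσD := inertia_le_dec _ hσ
    obtain ⟨a₀, ha₀⟩ : ∃ a₀ : AlgebraicClosure ℚ,
        a₀ ^ p = ((1 + (p : ℤ) * n : ℤ) : AlgebraicClosure ℚ) :=
      IsAlgClosed.exists_pow_nat_eq _ hp.pos
    obtain ⟨F', hF'⟩ : ∃ F' : IntermediateField ℚ (AlgebraicClosure ℚ),
        F' = F ⊔ IntermediateField.adjoin ℚ {ζ₀, a₀} := ⟨_, rfl⟩
    have : FiniteDimensional ℚ F := hFfin
    have : FiniteDimensional ℚ
        (IntermediateField.adjoin ℚ ({ζ₀, a₀} : Set (AlgebraicClosure ℚ))) :=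
      IntermediateField.finiteDimensional_adjoin
        (fun x _ => ((AlgebraicClosure.isAlgebraic ℚ).isAlgebraic x).isIntegral)
    have : FiniteDimensional ℚ F' := by
      rw [hF']
      exact IntermediateField.finiteDimensional_sup _ _
    have hζF' : ζ₀ ∈ F' := by
      rw [hF']
      exact (le_sup_right : _ ≤ F ⊔ IntermediateField.adjoin ℚ {ζ₀, a₀})
        (IntermediateField.subset_adjoin ℚ _ (Set.mem_insert _ _))
    have haF' : a₀ ∈ F' := by
      rw [hF']
      exact (le_sup_right : _ ≤ F ⊔ IntermediateField.adjoin ℚ {ζ₀, a₀})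
        (IntermediateField.subset_adjoin ℚ _ (Set.mem_insert_of_mem _ (Set.mem_singleton _)))
    have hFF' : F ≤ F' := by
      rw [hF']
      exact le_sup_left
    obtain ⟨τ, hτ⟩ :=
      Fermat.Agent.Lib.LocalGlobalDense.exists_local_lift_field p σ hσD F'
    have hρ : ρ (localGaloisToGlobal p τ) = ρ σ :=
      rho_eq_of_agree ρ F hF _ _ (fun x hx => hτ x (hFF' hx))
    have hτζ : τ ζ = ζ := by
      rw [hζdef, ← padicEmbedding_localGaloisToGlobal, hτ ζ₀ hζF', hμ ζ₀ hζ₀.pow_eq_one]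
    have hτa : τ (padicEmbedding p a₀) = padicEmbedding p a₀ := by
      rw [← padicEmbedding_localGaloisToGlobal, hτ a₀ haF', hroots a₀ ha₀]
    have hea : (padicEmbedding p a₀) ^ p = ((1 + (p : ℤ) * n : ℤ) : PadicAlgCl p) := by
      rw [← map_pow, ha₀, map_intCast]
    have hτroots : ∀ z : PadicAlgCl p,
        z ^ p = ((1 + (p : ℤ) * n : ℤ) : PadicAlgCl p) → τ z = z := by
      intro z hz
      have hea0 : padicEmbedding p a₀ ≠ 0 := by
        intro h0
        rw [h0, zero_pow hp.ne_zero] at hea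
        exact hu0 hea.symm
      have h1 : (z / padicEmbedding p a₀) ^ p = 1 := by
        rw [div_pow, hz, hea, div_self hu0]
      obtain ⟨i, -, hi⟩ := hζ.eq_pow_of_pow_eq_one h1
      have h2 : z = ζ ^ i * padicEmbedding p a₀ := by
        rw [hi]
        field_simp
      rw [h2, map_mul, map_pow, hτζ, hτa]
    have hfτ : f τ = 0 := hn τ hτζ hτroots
    have hZ1 := hZI σ hσ
    have hC : triC b (ρ σ) = 0 := by
      have h1 : triC b (ρ σ) * triZ b (ρ σ) = 0 := by
        rw [← hρ, ← hf]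
        exact hfτ
      rwa [hZ1, mul_one] at h1
    have hX : triX b (ρ σ) = 1 := by
      have h1 := tri_det b (ρ σ) (hst σ hσD)
      rw [hdet σ 1 (fun μ hμ' => by rw [pow_one]; exact hμ μ hμ'), hZ1, mul_one,
        Nat.cast_one] at h1
      exact h1.symm
    rw [tri_eq_one b (ρ σ) (hst σ hσD) hX hZ1 hC]
    rfl

end Fermat.Agent.S39.FinGood.H71
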