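/-
S39 (row 38, general form), leaf FIN-GOOD, part L1 (helper97): **FLAT-BDD**
`stmt_FlatBdd : Stmt_FlatBdd`.
For an integral Weierstrass model `W` with good reduction at the odd prime `p`, the points of
order `p` are defined over a finite Galois extension `L / ℚ_p` with bounded ramification
(Fontaine's bound).  From `Tate.H46.stmt_T1` (Tate module), `Tate.T5.H4.stmt_T5odd` (flat at `p`),
`S56.FL.H54.stmt_FL_A` (Fontaine).
-/
import Fermat.Agent.S39.FinGood.Defs
import Fermat.Agent.Tate.H46_T1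
import Fermat.Agent.Tate.T5.H4_T5
import Fermat.Agent.S56.FL.H54_FLA

set_option autoImplicit false
set_option linter.style.haveILetI false
set_option linter.unusedSectionVars false
set_option synthInstance.maxHeartbeats 400000
set_option maxHeartbeats 1000000

noncomputable section

namespace Fermat.Agent.S39.FinGood.H97

open Fermat.Agent.S39 Fermat.Agent.S39.FinGood Fermat.Agent.Tate Fermat.Agent.S56.FL
  Fermat.Agent.R

theorem finite_quot_span_p (p : ℕ) [Fact p.Prime] :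
    Finite (ℤ_[p] ⧸ Ideal.span {(p : ℤ_[p])}) := by
  rw [← PadicInt.maximalIdeal_eq_span_p]
  exact (inferInstance : Finite (IsLocalRing.ResidueField ℤ_[p]))

/-- an element of `(p) V` is `p w` -/
theorem exists_eq_smul_of_mem {p : ℕ} [Fact p.Prime] {V : Type} [AddCommGroup V]
    [Module ℤ_[p] V] {v : V}
    (hv : v ∈ Ideal.span {(p : ℤ_[p])} • (⊤ : Submodule ℤ_[p] V)) :
    ∃ w : V, v = p • w := by
  rw [Submodule.ideal_span_singleton_smul] at hv
  obtain ⟨w, -, hw⟩ := (Submodule.mem_smul_pointwise_iff_exists _ _ _).1 hv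
  exact ⟨w, by rw [← hw, Nat.cast_smul_eq_nsmul]⟩

/-- **L1** (FLAT-BDD). -/
theorem stmt_FlatBdd : Stmt_FlatBdd := by
  intro W hΔ p _ hp2 hgood
  obtain ⟨D⟩ := Fermat.Agent.Tate.H46.stmt_T1 W hΔ p
  have hflat : D.ρ.IsFlatAt p := Fermat.Agent.Tate.T5.H4.stmt_T5odd W hΔ p hp2 D hgood
  have hI : Finite (ℤ_[p] ⧸ Ideal.span {(p : ℤ_[p])}) := finite_quot_span_p p
  have hfm : IsFlatGaloisModule p
      (D.ρ.V ⧸ (Ideal.span {(p : ℤ_[p])} • (⊤ : Submodule ℤ_[p] D.ρ.V)))
      (fun σ => D.ρ.levelAction (Ideal.span {(p : ℤ_[p])}) σ) :=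
    hflat.2 (Ideal.span {(p : ℤ_[p])}) hI
  have hkill : ∀ m : D.ρ.V ⧸ (Ideal.span {(p : ℤ_[p])} • (⊤ : Submodule ℤ_[p] D.ρ.V)),
      p • m = 0 := by
    intro m
    obtain ⟨v, rfl⟩ := Submodule.Quotient.mk_surjective _ m
    rw [← Nat.cast_smul_eq_nsmul ℤ_[p], ← Submodule.Quotient.mk_smul,
      Submodule.Quotient.mk_eq_zero]
    exact Submodule.smul_mem_smul (Ideal.subset_span rfl) Submodule.mem_top
  obtain ⟨L, hfd, hN, hB, hfix⟩ := Fermat.Agent.S56.FL.H54.stmt_FL_A p hp2 _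
    (fun σ => D.ρ.levelAction (Ideal.span {(p : ℤ_[p])}) σ) hkill hfm
  refine ⟨L, hfd, hN, hB, ?_⟩
  intro σ hσ
  apply LinearMap.ext
  intro P
  rw [Module.End.one_apply]
  apply Subtype.ext
  have hP : p • (P : EQbar W) = 0 := by
    have := P.2
    rw [Submodule.mem_torsionBy_iff] at this
    rw [← this, natCast_zsmul]
  obtain ⟨v, hv⟩ := D.lev_surj 1 (P : EQbar W) (by rw [pow_one]; exact hP)
  have h1 := hfix σ hσ (Submodule.Quotient.mk v)
  have h2 : D.ρ.ρ (localGaloisToGlobal p σ) v - v ∈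
      Ideal.span {(p : ℤ_[p])} • (⊤ : Submodule ℤ_[p] D.ρ.V) := by
    rw [← Submodule.Quotient.mk_eq_zero, Submodule.Quotient.mk_sub, sub_eq_zero]
    exact h1
  obtain ⟨w, hw⟩ := exists_eq_smul_of_mem h2
  have h3 : D.lev 1 (D.ρ.ρ (localGaloisToGlobal p σ) v) = D.lev 1 v := by
    have h4 : D.lev 1 (D.ρ.ρ (localGaloisToGlobal p σ) v - v) = 0 := by
      rw [hw, map_nsmul]
      have := D.lev_tors 1 w
      rwa [pow_one] at this
    rw [map_sub, sub_eq_zero] at h4
    exact h4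
  rw [D.lev_equiv, hv] at h3
  exact h3

end Fermat.Agent.S39.FinGood.H97
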