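import Fermat.Agent.S39.FinGood.Defs2
import Fermat.Agent.S56.FL.H15_Comp
import Fermat.Agent.S56.FL.H38_CC1Leaves

/-!
# S39 / S40, leaf FIN-GOOD, sub-leaf KUM-INT (helper45)

`stmt_KumInt : Stmt_KumInt`: a bounded cocycle `f : Gal(K̄/ℚ_p) → ZMod p` for the mod `p`
cyclotomic character is cut out by the `p`-th roots of an integer `1 + p n`.

Proof: `H85.exists_kumRel` on `L ⊔ ℚ_p(ζ)` with `H = ⊤` gives `u ∈ ℚ_p`, `‖u‖ ≤ 1`,
`α ^ p = 1 + p u`, `s α = ζ ^ (f s) α`.  Take `n ≡ u mod p`; `y = (1 + p u) / (1 + p n)` is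
within `p⁻²` of `1`, so `y = b ^ p` with `b` fixed by the whole Galois group
(`exists_root_near_one`, `root_near_one_fixed`); `α / b` is a `p`-th root of `1 + p n`.
-/

set_option autoImplicit false

noncomputable section

namespace Fermat.Agent.S39.FinGood.H45

open Fermat.Agent.S56.FL Fermat.Agent.Lib.LocalKummer

/-- An element of `ℤ_p` is congruent to an integer modulo `p`. -/
theorem exists_int_norm_sub_lt_one (p : ℕ) [Fact p.Prime] (u : ℚ_[p]) (hu : ‖u‖ ≤ 1) :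
    ∃ n : ℤ, ‖u - (n : ℚ_[p])‖ < 1 := by
  obtain ⟨x, hx⟩ : ∃ x : ℤ_[p], (x : ℚ_[p]) = u := ⟨⟨u, hu⟩, rfl⟩
  obtain ⟨m, -, hm⟩ := PadicInt.exists_mem_range (p := p) x
  refine ⟨(m : ℤ), ?_⟩
  have h1 : ‖x - (m : ℤ_[p])‖ < 1 :=
    PadicInt.mem_nonunits.mp ((IsLocalRing.mem_maximalIdeal _).mp hm)
  rw [PadicInt.norm_def] at h1
  rw [← hx]
  simpa using h1

/-- **KUM-INT.** -/
theorem stmt_KumInt : Stmt_KumInt := by
  intro p _ hp2 ζ hζ L _ hNL hbdd f hf hfL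
  have hp : p.Prime := Fact.out
  -- the field `L' = L(ζ)`
  have : FiniteDimensional ℚ_[p] ↥(L ⊔ H15.cycloField p) :=
    IntermediateField.finiteDimensional_sup L (H15.cycloField p)
  have hN' : Normal ℚ_[p] ↥(L ⊔ H15.cycloField p) := by
    have := hNL
    have := H15.normal_cycloField (p := p)
    infer_instance
  have hb' : IsBddField p (L ⊔ H15.cycloField p) :=
    H15.isBdd_sup hp2 hNL (H15.normal_cycloField) hbdd (H15.isBdd_cycloField)
  have hζL' : ζ ∈ L ⊔ H15.cycloField p :=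
    (le_sup_right : H15.cycloField p ≤ L ⊔ H15.cycloField p)
      (H15.mem_cycloField_of_pow_eq_one hζ.pow_eq_one)
  have hfL' : ∀ s ∈ (L ⊔ H15.cycloField p).fixingSubgroup, f s = 0 := by
    intro s hs
    refine hfL s ?_
    rw [IntermediateField.mem_fixingSubgroup_iff] at hs ⊢
    exact fun x hx => hs x ((le_sup_left : L ≤ L ⊔ H15.cycloField p) hx)
  obtain ⟨u, hu1, hu2, α, hα, hsα⟩ := H85.exists_kumRel H38.stmt_NormDesc hζ
    (L ⊔ H15.cycloField p) hN' hb' hζL' (H := ⊤) le_top f (fun s _ t _ => hf s t) hfL'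
  -- `u ∈ ℚ_p`
  have hubot : u ∈ (⊥ : IntermediateField ℚ_[p] (PadicAlgCl p)) :=
    H85.mem_of_fixed_of_le (N := ⊤) le_top (fun s hs => hu1 s hs)
  obtain ⟨u0, rfl⟩ := IntermediateField.mem_bot.mp hubot
  have hu0 : ‖u0‖ ≤ 1 := by
    rw [← PadicAlgCl.norm_extends p u0]
    exact hu2
  obtain ⟨n, hn⟩ := exists_int_norm_sub_lt_one p u0 hu0
  refine ⟨n, fun σ _ hσ => ?_⟩
  -- norms in `ℚ_p`
  have hpinv : (0 : ℝ) < (p : ℝ)⁻¹ := H85.pinv_pos
  have hnp : ‖(p : ℚ_[p])‖ = (p : ℝ)⁻¹ := Padic.norm_p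
  have hn1 : ‖u0 - (n : ℚ_[p])‖ ≤ (p : ℝ)⁻¹ := by
    have h := (Padic.norm_le_pow_iff_norm_lt_pow_add_one (u0 - (n : ℚ_[p])) (-1)).mpr
      (by simpa using hn)
    simpa [zpow_neg_one] using h
  have hB1 : ‖(1 : ℚ_[p]) + (p : ℚ_[p]) * (n : ℚ_[p])‖ = 1 := by
    have h1 : ‖(p : ℚ_[p]) * (n : ℚ_[p])‖ < ‖(1 : ℚ_[p])‖ := by
      rw [norm_mul, hnp, norm_one]
      calc (p : ℝ)⁻¹ * ‖(n : ℚ_[p])‖ ≤ (p : ℝ)⁻¹ * 1 :=
            mul_le_mul_of_nonneg_left (Padic.norm_int_le_one n) hpinv.le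
        _ < 1 := by rw [mul_one]; exact H85.pinv_lt_one
    have h2 := IsUltrametricDist.norm_add_eq_max_of_norm_ne_norm (ne_of_lt h1)
    rw [max_eq_right (le_of_lt h1), norm_one, add_comm] at h2
    exact h2
  have hB0 : (1 : ℚ_[p]) + (p : ℚ_[p]) * (n : ℚ_[p]) ≠ 0 := by
    intro h0
    rw [h0, norm_zero] at hB1
    exact zero_ne_one hB1
  -- the quotient `y = (1 + p u) / (1 + p n)`
  obtain ⟨y0, hy0⟩ : ∃ y0 : ℚ_[p],
      y0 = (1 + (p : ℚ_[p]) * u0) / (1 + (p : ℚ_[p]) * (n : ℚ_[p])) := ⟨_, rfl⟩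
  have hy1 : y0 - 1 = (p : ℚ_[p]) * (u0 - (n : ℚ_[p])) / (1 + (p : ℚ_[p]) * (n : ℚ_[p])) := by
    rw [hy0]
    field_simp
    ring
  have hy2 : ‖y0 - 1‖ ≤ ((p : ℝ)⁻¹) ^ 2 := by
    rw [hy1, norm_div, hB1, div_one, norm_mul, hnp, sq]
    exact mul_le_mul_of_nonneg_left hn1 hpinv.le
  have hy : ‖algebraMap ℚ_[p] (PadicAlgCl p) y0 - 1‖ < ‖1 - ζ‖ ^ p := by
    have h1 : algebraMap ℚ_[p] (PadicAlgCl p) y0 - 1 =
        algebraMap ℚ_[p] (PadicAlgCl p) (y0 - 1) := by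
      rw [map_sub, map_one]
    rw [h1, PadicAlgCl.norm_extends p (y0 - 1)]
    exact lt_of_le_of_lt hy2 (lt_norm_one_sub_zeta_pow p hp2 hζ)
  obtain ⟨b, hbp, hb1⟩ := exists_root_near_one hp hζ hy
  have hbfix : ∀ s : Gp p, s b = b := by
    intro s
    refine root_near_one_fixed hp hζ
      (s : PadicAlgCl p ≃ₐ[ℚ_[p]] PadicAlgCl p).toRingEquiv.toRingHom
      (fun x => norm_gal p s x) hbp ?_ hb1
    exact s.commutes y0
  -- `α / b` is a `p`-th root of `1 + p n`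
  have hA : ‖1 + (p : PadicAlgCl p) * algebraMap ℚ_[p] (PadicAlgCl p) u0‖ = 1 :=
    H85.norm_one_add_p_mul hu2
  have hA0 : 1 + (p : PadicAlgCl p) * algebraMap ℚ_[p] (PadicAlgCl p) u0 ≠ 0 := by
    intro h0
    rw [h0, norm_zero] at hA
    exact zero_ne_one hA
  have hα0 : α ≠ 0 := by
    intro h0
    rw [h0, zero_pow hp.ne_zero] at hα
    exact hA0 hα.symm
  have hyA : algebraMap ℚ_[p] (PadicAlgCl p) y0 *
      (((1 + (p : ℤ) * n : ℤ) : PadicAlgCl p)) =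
      1 + (p : PadicAlgCl p) * algebraMap ℚ_[p] (PadicAlgCl p) u0 := by
    have h1 : y0 * (1 + (p : ℚ_[p]) * (n : ℚ_[p])) = 1 + (p : ℚ_[p]) * u0 := by
      rw [hy0]
      field_simp
    have h2 := congrArg (algebraMap ℚ_[p] (PadicAlgCl p)) h1
    simp only [map_mul, map_add, map_one, map_natCast, map_intCast] at h2
    rw [← h2]
    push_cast
    ring
  have hb0 : b ≠ 0 := by
    intro h0
    rw [h0, zero_pow hp.ne_zero] at hbp
    rw [← hbp, zero_mul] at hyA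
    exact hA0 hyA.symm
  have hz : (α / b) ^ p = (((1 + (p : ℤ) * n : ℤ) : PadicAlgCl p)) := by
    rw [div_pow, hα, hbp, ← hyA]
    have hy00 : algebraMap ℚ_[p] (PadicAlgCl p) y0 ≠ 0 := by
      rw [← hbp]
      exact pow_ne_zero _ hb0
    field_simp
  have h5 : σ α = α := by
    have h6 := hσ (α / b) hz
    rw [map_div₀, hbfix σ] at h6
    have h7 : σ α = σ α / b * b := by field_simp
    rw [h7, h6]
    field_simp
  have h8 := hsα σ (Subgroup.mem_top σ)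
  rw [h5] at h8
  have h9 : zpowZ ζ (f σ) = 1 := by
    have : zpowZ ζ (f σ) * α = 1 * α := by rw [one_mul]; exact h8.symm
    exact mul_right_cancel₀ hα0 this
  exact (zpowZ_eq_one_iff hζ _).mp h9

end Fermat.Agent.S39.FinGood.H45
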