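import Fermat.Agent.S39.FinGood.Defs2
import Fermat.Agent.S56.FL.H85_CCKum
import Fermat.Agent.S56.FL.H38_CC1Leaves
import Fermat.Agent.S56.FL.H15_Comp
import Fermat.Agent.S56.FL.H38_InertiaOnto

/-!
# S39 / S40, leaf FIN-GOOD, sub-leaf KUM-INT (helper49, racing): `stmt_KumInt : Stmt_KumInt`

A bounded cocycle `f : Gal(K̄/ℚ_p) → ZMod p` for the mod `p` cyclotomic character is cut out by
`μ_p` and the `p`-th roots of an integer `1 + p n`.
Route (plan `NOTES/plan/L_S39_FinGood.md` par. 2 (b), (c)): `H85.exists_kumRel` with `H = ⊤` over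
`L ⊔ ℚ_p(ζ)` gives `α ^ p = 1 + p u`, `u ∈ ℤ_p`; `n ≡ u mod p`;
`(1 + p u) / (1 + p n) ∈ 1 + p² ℤ_p` is a `p`-th power `b ^ p` with `b` fixed by `G_p`.
-/

set_option autoImplicit false

noncomputable section

namespace Fermat.Agent.S39.FinGood.H49

open Fermat.Agent.S56.FL Fermat.Agent.Lib.LocalKummer

variable {p : ℕ} [Fact p.Prime]

/-- An integer of `K̄` fixed by `Gal(K̄/ℚ_p)` is congruent to a rational integer. -/
theorem exists_int_near {u : PadicAlgCl p} (hfix : ∀ s : Gp p, s u = u) (hu : ‖u‖ ≤ 1) :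
    ∃ n : ℤ, ‖u - (n : PadicAlgCl p)‖ ≤ (p : ℝ)⁻¹ := by
  have hmem : u ∈ (⊥ : IntermediateField ℚ_[p] (PadicAlgCl p)) :=
    H38.mem_of_fixed_by_fixingSubgroup (fun σ _ => hfix σ)
  rw [IntermediateField.mem_bot] at hmem
  obtain ⟨u₀, rfl⟩ := hmem
  rw [norm_algebraMap'] at hu
  obtain ⟨x, hx⟩ : ∃ x : ℤ_[p], (x : ℚ_[p]) = u₀ := ⟨⟨u₀, hu⟩, rfl⟩
  refine ⟨((x.appr 1 : ℕ) : ℤ), ?_⟩
  have h1 := PadicInt.appr_spec 1 x
  have h2 : ‖x - ((x.appr 1 : ℕ) : ℤ_[p])‖ ≤ (p : ℝ) ^ (-(1 : ℕ) : ℤ) :=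
    (PadicInt.norm_le_pow_iff_mem_span_pow _ 1).2 h1
  have e : algebraMap ℚ_[p] (PadicAlgCl p) u₀ - (((x.appr 1 : ℕ) : ℤ) : PadicAlgCl p) =
      algebraMap ℚ_[p] (PadicAlgCl p) (u₀ - ((x.appr 1 : ℕ) : ℚ_[p])) := by
    rw [map_sub, map_natCast]
    push_cast
    rfl
  have e3 : ‖u₀ - ((x.appr 1 : ℕ) : ℚ_[p])‖ = ‖x - ((x.appr 1 : ℕ) : ℤ_[p])‖ := by
    rw [PadicInt.norm_def, PadicInt.coe_sub, PadicInt.coe_natCast, hx]
  rw [e, norm_algebraMap', e3]
  have e2 : (p : ℝ) ^ (-(1 : ℕ) : ℤ) = (p : ℝ)⁻¹ := by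
    rw [Nat.cast_one, zpow_neg, zpow_one]
  rw [e2] at h2
  exact h2

/-- **KUM-INT.** -/
theorem stmt_KumInt : Stmt_KumInt := by
  intro p _ hp2 ζ hζ L _ hNL hbdd f hf hfL
  have hp : p.Prime := Fact.out
  have hppos : (0 : ℝ) < p := by exact_mod_cast hp.pos
  have := hNL
  have : Normal ℚ_[p] (H15.cycloField p) := H15.normal_cycloField
  have hbdd' : IsBddField p (L ⊔ H15.cycloField p) :=
    H15.isBdd_sup hp2 hNL H15.normal_cycloField hbdd H15.isBdd_cycloField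
  have hζL : ζ ∈ L ⊔ H15.cycloField p :=
    (le_sup_right : H15.cycloField p ≤ L ⊔ H15.cycloField p)
      (H15.mem_cycloField_of_pow_eq_one hζ.pow_eq_one)
  have hfL' : ∀ s ∈ (L ⊔ H15.cycloField p).fixingSubgroup, f s = 0 := by
    intro s hs
    refine hfL s ?_
    rw [IntermediateField.mem_fixingSubgroup_iff] at hs ⊢
    exact fun x hx => hs x ((le_sup_left : L ≤ L ⊔ H15.cycloField p) hx)
  obtain ⟨u, hufix, hu1, α, hα, hαs⟩ := H85.exists_kumRel (H := ⊤) H38.stmt_NormDesc hζ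
    (L ⊔ H15.cycloField p) inferInstance hbdd' hζL le_top f (fun s _ t _ => hf s t) hfL'
  have hufix' : ∀ s : Gp p, s u = u := fun s => hufix s (Subgroup.mem_top s)
  obtain ⟨n, hn⟩ := exists_int_near hufix' hu1
  -- `1 + p n` is a unit
  have hnn : ‖((n : ℤ) : PadicAlgCl p)‖ ≤ 1 := by
    have e : ((n : ℤ) : PadicAlgCl p) = u - (u - (n : PadicAlgCl p)) := by ring
    rw [e]
    refine (H15.norm_sub_le_max_algCl _ _).trans (max_le hu1 ?_)
    exact hn.trans H85.pinv_lt_one.le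
  have hB : ‖1 + (p : PadicAlgCl p) * (n : PadicAlgCl p)‖ = 1 := H85.norm_one_add_p_mul hnn
  have hB0 : 1 + (p : PadicAlgCl p) * (n : PadicAlgCl p) ≠ 0 := by
    intro h
    rw [h, norm_zero] at hB
    exact zero_ne_one hB
  -- the quotient is close to `1`
  have hy : ‖(1 + (p : PadicAlgCl p) * u) / (1 + (p : PadicAlgCl p) * (n : PadicAlgCl p)) - 1‖ <
      ‖1 - ζ‖ ^ p := by
    refine lt_of_le_of_lt ?_ (lt_norm_one_sub_zeta_pow p hp2 hζ)
    have e : (1 + (p : PadicAlgCl p) * u) / (1 + (p : PadicAlgCl p) * (n : PadicAlgCl p)) - 1 =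
        (p : PadicAlgCl p) * (u - (n : PadicAlgCl p)) /
          (1 + (p : PadicAlgCl p) * (n : PadicAlgCl p)) := by
      field_simp
      ring
    rw [e, norm_div, hB, div_one, norm_mul, H85.norm_p_Ω, sq]
    exact mul_le_mul_of_nonneg_left hn H85.pinv_pos.le
  obtain ⟨b, hbp, hb1⟩ := exists_root_near_one hp hζ hy
  have hA : ‖1 + (p : PadicAlgCl p) * u‖ = 1 := H85.norm_one_add_p_mul hu1
  have hA0 : 1 + (p : PadicAlgCl p) * u ≠ 0 := by
    intro h
    rw [h, norm_zero] at hA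
    exact zero_ne_one hA
  have hb0 : b ≠ 0 := by
    intro h0
    rw [h0, zero_pow hp.ne_zero] at hbp
    exact div_ne_zero hA0 hB0 hbp.symm
  have hα0 : α ≠ 0 := by
    intro h0
    rw [h0, zero_pow hp.ne_zero] at hα
    exact hA0 hα.symm
  have hbfix : ∀ s : Gp p, s b = b := by
    intro s
    refine root_near_one_fixed hp hζ (s : PadicAlgCl p ≃ₐ[ℚ_[p]] PadicAlgCl p).toRingEquiv.toRingHom
      (fun x => norm_gal p s x) hbp ?_ hb1
    show s ((1 + (p : PadicAlgCl p) * u) / (1 + (p : PadicAlgCl p) * (n : PadicAlgCl p))) =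
      (1 + (p : PadicAlgCl p) * u) / (1 + (p : PadicAlgCl p) * (n : PadicAlgCl p))
    rw [map_div₀, map_add, map_add, map_one, map_mul, map_mul, map_natCast, map_intCast,
      hufix' s]
  -- `α / b` is a `p`-th root of `1 + p n`
  have hroot : (α / b) ^ p = (((1 + (p : ℤ) * n : ℤ)) : PadicAlgCl p) := by
    rw [div_pow, hα, hbp]
    push_cast
    field_simp
  refine ⟨n, fun σ _ hσ => ?_⟩
  have h1 : σ (α / b) = α / b := hσ _ hroot
  have h2 : σ α = α := by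
    have e : α = (α / b) * b := by field_simp
    rw [e, map_mul, h1, hbfix σ]
  have h3 := hαs σ (Subgroup.mem_top σ)
  rw [h2] at h3
  have h4 : zpowZ ζ (f σ) = 1 := by
    have : zpowZ ζ (f σ) * α = 1 * α := by rw [one_mul]; exact h3.symm
    exact mul_right_cancel₀ hα0 this
  exact (zpowZ_eq_one_iff hζ _).mp h4

end Fermat.Agent.S39.FinGood.H49

end
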